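/-
helper89, P-FF / FF-F6 (row 660): products and powers of Hopf models.

`prodModel : ProdModelStatement` and `powModel : PowModelStatement`, unconditionally: the tensor
product `H₁ ⊗ H₂` of two Hopf models (Mathlib's Hopf algebra structure on the tensor product) is a
Hopf model of the product `Z₁ × Z₂`; powers by induction, the trivial group having the model
`ℤ_(ℓ)`.
-/
import Mathlib
import Fermat.Agent.H72.FF.FlatInterfaces

set_option autoImplicit false

noncomputable section

open TensorProduct

namespace Fermat.Agent.H89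

section conv

variable {R A B C : Type*} [CommSemiring R] [CommSemiring A] [CommSemiring B] [CommSemiring C]
  [Bialgebra R A] [Bialgebra R B] [Algebra R C]

open Coalgebra in
/-- The convolution product on `A ⊗ B` restricts to the convolution product on `A`. -/
lemma prodm_conv_tmul_one (f g : WithConv (A ⊗[R] B →ₐ[R] C)) (x : A) :
    (f * g) (x ⊗ₜ[R] (1 : B))
      = (WithConv.toConv (f.ofConv.comp Algebra.TensorProduct.includeLeft)
          * WithConv.toConv (g.ofConv.comp Algebra.TensorProduct.includeLeft)) x := by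
  rw [AlgHom.convMul_apply, AlgHom.convMul_apply, TensorProduct.comul_tmul,
    Bialgebra.comul_one, ← (ℛ R x).eq, TensorProduct.sum_tmul, map_sum, map_sum, map_sum]
  refine Finset.sum_congr rfl fun i _ => ?_
  rw [Algebra.TensorProduct.one_def, AlgebraTensorModule.tensorTensorTensorComm_tmul,
    Algebra.TensorProduct.lift_tmul, Algebra.TensorProduct.lift_tmul]
  rfl

open Coalgebra in
/-- The convolution product on `A ⊗ B` restricts to the convolution product on `B`. -/
lemma prodm_conv_one_tmul (f g : WithConv (A ⊗[R] B →ₐ[R] C)) (y : B) :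
    (f * g) ((1 : A) ⊗ₜ[R] y)
      = (WithConv.toConv (f.ofConv.comp Algebra.TensorProduct.includeRight)
          * WithConv.toConv (g.ofConv.comp Algebra.TensorProduct.includeRight)) y := by
  rw [AlgHom.convMul_apply, AlgHom.convMul_apply, TensorProduct.comul_tmul,
    Bialgebra.comul_one, ← (ℛ R y).eq, TensorProduct.tmul_sum, map_sum, map_sum, map_sum]
  refine Finset.sum_congr rfl fun i _ => ?_
  rw [Algebra.TensorProduct.one_def, AlgebraTensorModule.tensorTensorTensorComm_tmul,
    Algebra.TensorProduct.lift_tmul, Algebra.TensorProduct.lift_tmul]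
  rfl

lemma prodm_conv_comp_includeLeft (f g : WithConv (A ⊗[R] B →ₐ[R] C)) :
    WithConv.toConv ((f * g).ofConv.comp Algebra.TensorProduct.includeLeft)
      = WithConv.toConv (f.ofConv.comp Algebra.TensorProduct.includeLeft)
          * WithConv.toConv (g.ofConv.comp Algebra.TensorProduct.includeLeft) := by
  apply WithConv.ext
  apply AlgHom.ext
  intro x
  exact prodm_conv_tmul_one f g x

lemma prodm_conv_comp_includeRight (f g : WithConv (A ⊗[R] B →ₐ[R] C)) :
    WithConv.toConv ((f * g).ofConv.comp Algebra.TensorProduct.includeRight)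
      = WithConv.toConv (f.ofConv.comp Algebra.TensorProduct.includeRight)
          * WithConv.toConv (g.ofConv.comp Algebra.TensorProduct.includeRight) := by
  apply WithConv.ext
  apply AlgHom.ext
  intro y
  exact prodm_conv_one_tmul f g y

/-- Points of `A ⊗ B` are pairs of points. -/
def prodmPointsEquiv :
    WithConv (A ⊗[R] B →ₐ[R] C) ≃ WithConv (A →ₐ[R] C) × WithConv (B →ₐ[R] C) where
  toFun f := (WithConv.toConv (f.ofConv.comp Algebra.TensorProduct.includeLeft),
    WithConv.toConv (f.ofConv.comp Algebra.TensorProduct.includeRight))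
  invFun p := WithConv.toConv
    (Algebra.TensorProduct.lift p.1.ofConv p.2.ofConv (fun _ _ => Commute.all _ _))
  left_inv f := by
    apply WithConv.ext
    apply Algebra.TensorProduct.ext
    · apply AlgHom.ext
      intro x
      simp
    · apply AlgHom.ext
      intro y
      simp
  right_inv p := by
    refine Prod.ext ?_ ?_
    · apply WithConv.ext
      apply AlgHom.ext
      intro x
      simp
    · apply WithConv.ext
      apply AlgHom.ext
      intro y
      simp

lemma prodmPointsEquiv_mul (f g : WithConv (A ⊗[R] B →ₐ[R] C)) :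
    prodmPointsEquiv (f * g) = (prodmPointsEquiv f * prodmPointsEquiv g : _ × _) :=
  Prod.ext (prodm_conv_comp_includeLeft f g) (prodm_conv_comp_includeRight f g)

end conv

section model

open Fermat.Agent.H10.FF Fermat.Agent.H72.FF

/-- **FF-F6, general form**: the tensor product of Hopf models is a Hopf model of the product
(any two actions). -/
theorem hasHopfModel_prod {ℓ : ℕ} {Z₁ Z₂ : Type} [AddCommGroup Z₁] [AddCommGroup Z₂]
    (act₁ : GQ → Z₁ → Z₁) (act₂ : GQ → Z₂ → Z₂)
    (h₁ : HasHopfModel ℓ Z₁ act₁) (h₂ : HasHopfModel ℓ Z₂ act₂) :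
    HasHopfModel ℓ (Z₁ × Z₂) (fun (σ : GQ) (z : Z₁ × Z₂) => (act₁ σ z.1, act₂ σ z.2)) := by
  obtain ⟨H₁, _, _, hfin1, hflat1, hco1, e₁, hadd1, hgal1⟩ := h₁
  obtain ⟨H₂, _, _, hfin2, hflat2, hco2, e₂, hadd2, hgal2⟩ := h₂
  refine ⟨H₁ ⊗[GaloisRep.ratLocalizedAt ℓ] H₂, inferInstance, inferInstance, inferInstance,
    inferInstance, inferInstance,
    (prodmPointsEquiv (R := GaloisRep.ratLocalizedAt ℓ) (A := H₁) (B := H₂)
      (C := AlgebraicClosure ℚ)).trans (Equiv.prodCongr e₁ e₂), ?_, ?_⟩
  · intro f g
    rw [Equiv.trans_apply, Equiv.trans_apply, Equiv.trans_apply, prodmPointsEquiv_mul]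
    exact Prod.ext (hadd1 _ _) (hadd2 _ _)
  · intro σ f g hfg
    rw [Equiv.trans_apply, Equiv.trans_apply]
    refine Prod.ext ?_ ?_
    · exact hgal1 σ _ _ fun x => hfg (x ⊗ₜ 1)
    · exact hgal2 σ _ _ fun y => hfg (1 ⊗ₜ y)

/-- **FF-F6 (products).** -/
theorem prodModel : ProdModelStatement := by
  intro ℓ _ Z₁ Z₂ _ _ _ _ _ _ h₁ h₂
  exact hasHopfModel_prod _ _ h₁ h₂

/-- The trivial group has the Hopf model `ℤ_(ℓ)`. -/
theorem hasHopfModel_of_unique {ℓ : ℕ} {Z : Type} [AddCommGroup Z] [Unique Z]
    (act : GQ → Z → Z) : HasHopfModel ℓ Z act := by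
  have hsub : Subsingleton
      (WithConv (GaloisRep.ratLocalizedAt ℓ →ₐ[GaloisRep.ratLocalizedAt ℓ] AlgebraicClosure ℚ)) :=
    ⟨fun f g => WithConv.ext (Subsingleton.elim _ _)⟩
  refine ⟨GaloisRep.ratLocalizedAt ℓ, inferInstance, inferInstance, inferInstance, inferInstance,
    inferInstance,
    { toFun := fun _ => default
      invFun := fun _ => WithConv.toConv (Algebra.ofId _ _)
      left_inv := fun _ => Subsingleton.elim _ _
      right_inv := fun _ => Subsingleton.elim _ _ }, ?_, ?_⟩
  · intro f g
    exact Subsingleton.elim _ _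
  · intro σ f g _
    exact Subsingleton.elim _ _

/-- `Fin (r + 1) → Z` is `Z × (Fin r → Z)`. -/
def prodmFinSuccAddEquiv (Z : Type) [AddCommGroup Z] (r : ℕ) :
    (Z × (Fin r → Z)) ≃+ (Fin (r + 1) → Z) where
  toFun p := Fin.cons p.1 p.2
  invFun f := (f 0, Fin.tail f)
  left_inv p := by simp
  right_inv f := by simp
  map_add' p q := by
    funext i
    refine Fin.cases ?_ (fun j => ?_) i
    · simp
    · simp

/-- **FF-F6', general form**: powers of a Hopf model (any action). -/
theorem hasHopfModel_pow {ℓ : ℕ} {Z : Type} [AddCommGroup Z] (act : GQ → Z → Z)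
    (h : HasHopfModel ℓ Z act) :
    ∀ r : ℕ, HasHopfModel ℓ (Fin r → Z) (fun (σ : GQ) (z : Fin r → Z) => fun i => act σ (z i))
  | 0 => hasHopfModel_of_unique _
  | r + 1 => by
    have h1 := hasHopfModel_prod act _ h (hasHopfModel_pow act h r)
    refine HasHopfModel.congr (prodmFinSuccAddEquiv Z r) ?_ h1
    intro σ z
    funext i
    refine Fin.cases ?_ (fun j => ?_) i
    · simp [prodmFinSuccAddEquiv]
    · simp [prodmFinSuccAddEquiv]

/-- **FF-F6' (powers).** -/
theorem powModel : PowModelStatement := by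
  intro ℓ _ Z _ _ _ r h
  exact hasHopfModel_pow _ h r

end model

end Fermat.Agent.H89
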